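import Mathlib
import Fermat.Prelude.Def_ModularCurve_PeriodHomPair

/-!
# S21-C: the range of `periodHomPair` lies in the parabolic homomorphisms

Unconditional: if no equivariant primitive / linear period map exists, the relevant maps are `0`.
-/

set_option autoImplicit false

namespace Fermat.Agent.H97

open UpperHalfPlane CongruenceSubgroup Filter Topology ModularCurve ModularCurve.Period

open scoped MatrixGroups

/-- Integer linear algebra: a trace-2, determinant-1 integer matrix `[[a,b],[c,d]]` fixes a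
primitive vector `(x,y)`, which can be completed to a unimodular matrix `[[x,u],[y,v]]`
conjugating it to `[[1,m],[0,1]]`. -/
theorem int_unipotent_conj_aux (a b c d : ℤ) (h : a + d = 2) (hdet : a * d - b * c = 1) :
    ∃ x y u v m : ℤ, x * v - u * y = 1 ∧ a * x + b * y = x ∧ c * x + d * y = y ∧
      a * u + b * v = x * m + u ∧ c * u + d * v = y * m + v := by
  have e1 : (a - 1) * (a - 1) + b * c = 0 := by linear_combination (-1 : ℤ) * hdet + a * h
  -- find a primitive vector `(x, y)` fixed by the matrix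
  obtain ⟨x, y, hxy, h1, h2⟩ : ∃ x y : ℤ, Int.gcd x y = 1 ∧ (a - 1) * x + b * y = 0 ∧
      c * x + (d - 1) * y = 0 := by
    by_cases h0 : Int.gcd (a - 1) c = 0
    · rw [Int.gcd_eq_zero_iff] at h0
      refine ⟨1, 0, by simp, ?_, ?_⟩
      · rw [h0.1]; ring
      · rw [h0.2]; ring
    · obtain ⟨x, y, hxy, hx, hy⟩ := Int.exists_gcd_one (Nat.pos_of_ne_zero h0)
      have hg : (Int.gcd (a - 1) c : ℤ) ≠ 0 := by exact_mod_cast h0
      generalize (Int.gcd (a - 1) c : ℤ) = g at hx hy hg
      refine ⟨x, y, hxy, ?_, ?_⟩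
      · apply mul_left_cancel₀ hg
        apply mul_left_cancel₀ hg
        linear_combination g * e1 - g * (a - 1) * hx - g * b * hy
      · apply mul_left_cancel₀ hg
        linear_combination c * h - c * hx - (d - 1) * hy
  obtain ⟨u', v', huv⟩ : ∃ u' v' : ℤ, u' * x + v' * y = 1 := by
    have := Int.isCoprime_iff_gcd_eq_one.mpr hxy
    exact this
  -- take `u = -v'`, `v = u'`
  set u : ℤ := -v' with hu
  set v : ℤ := u' with hv
  have huv' : x * v - u * y = 1 := by rw [hu, hv]; linear_combination huv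
  set p : ℤ := (a - 1) * u + b * v with hp
  set q : ℤ := c * u + (d - 1) * v with hq
  have hpq : p * y - q * x = 0 := by
    rw [hp, hq]
    linear_combination (-u) * h2 + v * h1 + (u * y - v * x) * h
  refine ⟨x, y, u, v, p * v - q * u, huv', by linear_combination h1, by linear_combination h2,
    ?_, ?_⟩
  · -- a u + b v = x m + u, i.e. p = x * m
    have : p = x * (p * v - q * u) := by linear_combination (-p) * huv' - u * hpq
    linear_combination this
  · have : q = y * (p * v - q * u) := by linear_combination (-q) * huv' - v * hpq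
    linear_combination this

/-- A trace-2 element of `SL(2,ℤ)` is conjugate (inside `SL(2,ℤ)`) to a power of `T`. -/
theorem exists_mul_eq_mul_T_zpow_of_trace_eq_two (γ : SL(2, ℤ))
    (h : (γ : Matrix (Fin 2) (Fin 2) ℤ).trace = 2) :
    ∃ (δ : SL(2, ℤ)) (m : ℤ), γ * δ = δ * ModularGroup.T ^ m := by
  have hdet : (γ : Matrix (Fin 2) (Fin 2) ℤ) 0 0 * (γ : Matrix (Fin 2) (Fin 2) ℤ) 1 1
      - (γ : Matrix (Fin 2) (Fin 2) ℤ) 0 1 * (γ : Matrix (Fin 2) (Fin 2) ℤ) 1 0 = 1 := by
    have := γ.2
    rwa [Matrix.det_fin_two] at this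
  rw [Matrix.trace_fin_two] at h
  obtain ⟨x, y, u, v, m, hdet', h1, h2, h3, h4⟩ := int_unipotent_conj_aux _ _ _ _ h hdet
  let δ : SL(2, ℤ) := ⟨!![x, u; y, v], by rw [Matrix.det_fin_two_of]; exact hdet'⟩
  have hδ : (δ : Matrix (Fin 2) (Fin 2) ℤ) = !![x, u; y, v] := rfl
  refine ⟨δ, m, ?_⟩
  apply Subtype.ext
  rw [Matrix.SpecialLinearGroup.coe_mul, Matrix.SpecialLinearGroup.coe_mul,
    ModularGroup.coe_T_zpow, hδ]
  ext i j
  fin_cases i <;> fin_cases j
  · simpa [Matrix.mul_apply, Fin.sum_univ_two] using h1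
  · simpa [Matrix.mul_apply, Fin.sum_univ_two] using h3
  · simpa [Matrix.mul_apply, Fin.sum_univ_two] using h2
  · simpa [Matrix.mul_apply, Fin.sum_univ_two] using h4

/-- Real translations preserve the filter `atImInfty`. -/
theorem tendsto_vadd_atImInfty (x : ℝ) :
    Tendsto (fun w : ℍ => x +ᵥ w) atImInfty atImInfty := by
  rw [atImInfty, tendsto_comap_iff]
  have : (UpperHalfPlane.im ∘ fun w : ℍ => x +ᵥ w) = UpperHalfPlane.im := by
    funext w
    simp [UpperHalfPlane.vadd_im]
  rw [this]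
  exact tendsto_comap

/-- Key lemma: if `F` has a limit along every cusp and `F ∘ γ - F` is the constant `c` for some
`γ ∈ SL(2,ℤ)` with `trace² = 4`, then `c = 0`. -/
theorem const_eq_zero_of_trace_sq_eq_four (F : ℍ → ℂ)
    (hlim : ∀ δ : SL(2, ℤ), ∃ L : ℂ, Tendsto (fun w : ℍ => F (δ • w)) atImInfty (𝓝 L))
    (γ : SL(2, ℤ)) (hγ : (γ : Matrix (Fin 2) (Fin 2) ℤ).trace ^ 2 = 4) (c : ℂ)
    (hc : ∀ z : ℍ, F (γ • z) - F z = c) : c = 0 := by
  -- reduce to trace `2`
  wlog htr : (γ : Matrix (Fin 2) (Fin 2) ℤ).trace = 2 generalizing γ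
  · have h2 : (γ : Matrix (Fin 2) (Fin 2) ℤ).trace = -2 := by
      have h4 : ((γ : Matrix (Fin 2) (Fin 2) ℤ).trace - 2) *
          ((γ : Matrix (Fin 2) (Fin 2) ℤ).trace + 2) = 0 := by linear_combination hγ
      rcases mul_eq_zero.mp h4 with h | h
      · exact absurd (by linear_combination h) htr
      · linear_combination h
    refine this (-γ) ?_ ?_ ?_
    · rw [Matrix.SpecialLinearGroup.coe_neg, Matrix.trace_neg, neg_pow, hγ]; norm_num
    · intro z
      rw [ModularGroup.SL_neg_smul]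
      exact hc z
    · rw [Matrix.SpecialLinearGroup.coe_neg, Matrix.trace_neg, h2]; norm_num
  obtain ⟨δ, m, hδ⟩ := exists_mul_eq_mul_T_zpow_of_trace_eq_two γ htr
  obtain ⟨L, hL⟩ := hlim δ
  have hL' : Tendsto (fun w : ℍ => F (δ • ((m : ℝ) +ᵥ w))) atImInfty (𝓝 L) :=
    hL.comp (tendsto_vadd_atImInfty (m : ℝ))
  have hconst : ∀ w : ℍ, F (δ • ((m : ℝ) +ᵥ w)) - F (δ • w) = c := by
    intro w
    rw [← UpperHalfPlane.modular_T_zpow_smul, ← mul_smul, ← hδ, mul_smul]
    exact hc _
  have hsub : Tendsto (fun w : ℍ => F (δ • ((m : ℝ) +ᵥ w)) - F (δ • w)) atImInfty (𝓝 (L - L)) :=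
    hL'.sub hL
  simp_rw [hconst, sub_self] at hsub
  exact tendsto_nhds_unique tendsto_const_nhds hsub

/-- The period homomorphism of any equivariant primitive with limits at all cusps is parabolic. -/
theorem periodHom_isParabolicHom {N : ℕ} {F : ℍ → ℂ} (hF : IsEquivariantPrimitive (Gamma0 N) F)
    (hlim : ∀ δ : SL(2, ℤ), ∃ L : ℂ, Tendsto (fun w : ℍ => F (δ • w)) atImInfty (𝓝 L)) :
    IsParabolicHom (Gamma0 N) hF.periodHom := by
  intro γ hγ
  rw [IsEquivariantPrimitive.periodHom_apply]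
  exact const_eq_zero_of_trace_sq_eq_four F hlim (γ : SL(2, ℤ)) hγ _
    (fun z => hF.sub_eq_period γ z)

/-- `periodMap N f` is always a parabolic homomorphism. -/
theorem periodMap_mem_parabolicHoms (N : ℕ) (f : CuspForm (Gamma0 N) 2) :
    periodMap N f ∈ parabolicHoms ℂ (Gamma0 N) ℂ := by
  classical
  by_cases h : ∃ F : ℍ → ℂ, HasEquivariantPrimitive N f F
  · obtain ⟨F, hF⟩ := h
    obtain ⟨F₀, h₀, hpm⟩ := periodMap_def N f hF
    rw [hpm, mem_parabolicHoms_iff]
    exact periodHom_isParabolicHom h₀.2.2.1 h₀.2.2.2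
  · have : periodMap N f = 0 := by
      unfold periodMap
      rw [dif_neg h]
    rw [this]
    exact Submodule.zero_mem _

/-- **S21-C**: every value of `periodHomPair` is a parabolic homomorphism (unconditional). -/
theorem periodHomPair_mem_parabolicHoms (N : ℕ)
    (p : CuspForm (Gamma0 N) 2 × CuspForm (Gamma0 N) 2) :
    periodHomPair N p ∈ parabolicHoms ℂ (Gamma0 N) ℂ := by
  classical
  by_cases h : ExistsPeriodMapLinear N
  · obtain ⟨pml, hpml, hdef⟩ := periodHomPair_def N h
    rw [hdef]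
    have h1 : pml p.1 ∈ parabolicHoms ℂ (Gamma0 N) ℂ := by
      rw [hpml]; exact periodMap_mem_parabolicHoms N p.1
    have h2 : pml p.2 ∈ parabolicHoms ℂ (Gamma0 N) ℂ := by
      rw [hpml]; exact periodMap_mem_parabolicHoms N p.2
    simp only [LinearMap.coprod_apply, LinearMap.comp_apply, LinearMap.add_apply,
      LinearMap.sub_apply, LinearMap.id_apply]
    exact Submodule.add_mem _
      (Submodule.add_mem _ h1 (charInvolution_mem_parabolicHoms N ℂ ℂ h1))
      (Submodule.sub_mem _ h2 (charInvolution_mem_parabolicHoms N ℂ ℂ h2))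
  · have : periodHomPair N = 0 := by
      unfold periodHomPair
      rw [dif_neg h]
    rw [this]
    exact Submodule.zero_mem _

/-- **S21-C**, range form. -/
theorem range_periodHomPair_le_parabolicHoms (N : ℕ) :
    LinearMap.range (periodHomPair N) ≤ parabolicHoms ℂ (Gamma0 N) ℂ := by
  rintro _ ⟨p, rfl⟩
  exact periodHomPair_mem_parabolicHoms N p

end Fermat.Agent.H97
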