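import Mathlib
import Fermat.Agent.H29.ESB.Interfaces
import Fermat.Agent.H23.PlaceBasic

/-!
# P-ES / ES-B, row ESB-2c (helper97): uniqueness of the extension of a place

* `esb_normalForm` : every `K`-linear combination of elements of `bc Fk` can be rewritten with
  `k`-linearly independent coefficients (Step 2 of ESB-2b).
* `placeExtUnique` : `GaussFormulaStatement → PlaceExtUniqueStatement`.
* `placeExt` : `PlaceAboveStatement → GaussFormulaStatement → PlaceExtStatement`.
-/

set_option autoImplicit false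

noncomputable section

namespace Fermat.Agent.H97

open AlgebraicCurve Fermat.Agent.H29 Fermat.Agent.H23

variable {k K Fk FK : Type} [Field k] [Field K] [Field Fk] [Field FK]
  [Algebra k Fk] [Algebra K FK]

/-- Normal form: a `K`-linear combination of elements of `bc Fk` is a combination with
`k`-linearly independent coefficients. -/
theorem esb_normalForm (E : ConstExt k K Fk FK) (n : ℕ) (a : Fin n → K) (u : Fin n → Fk) :
    ∃ (n' : ℕ) (e : Fin n' → K) (u' : Fin n' → Fk),
      (∀ c : Fin n' → k, ∑ i, E.ι (c i) * e i = 0 → ∀ i, c i = 0) ∧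
      ∑ i, algebraMap K FK (a i) * E.bc (u i) = ∑ l, algebraMap K FK (e l) * E.bc (u' l) := by
  let _ : Algebra k K := E.ι.toAlgebra
  have hsmul : ∀ (c : k) (x : K), c • x = E.ι c * x := fun c x => rfl
  let V : Submodule k K := Submodule.span k (Set.range a)
  have : Module.Finite k V := Module.Finite.span_of_finite k (Set.finite_range a)
  let b := Module.finBasis k V
  have ha : ∀ i, a i ∈ V := fun i => Submodule.subset_span ⟨i, rfl⟩
  refine ⟨Module.finrank k V, fun l => (b l : K),
    fun l => ∑ i, (b.repr ⟨a i, ha i⟩ l) • u i, ?_, ?_⟩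
  · intro c hc
    have hli := b.linearIndependent
    have h0 : ∑ i, c i • b i = 0 := by
      apply Subtype.ext
      rw [Submodule.coe_sum, Submodule.coe_zero]
      simp only [Submodule.coe_smul, hsmul]
      exact hc
    exact fun i => (Fintype.linearIndependent_iff.mp hli) c h0 i
  · have hrepr : ∀ i, a i = ∑ l, E.ι (b.repr ⟨a i, ha i⟩ l) * (b l : K) := by
      intro i
      have h1 := b.sum_repr ⟨a i, ha i⟩
      have h2 := congrArg (Subtype.val) h1
      rw [Submodule.coe_sum] at h2
      simp only [Submodule.coe_smul, hsmul] at h2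
      exact h2.symm
    have hbc : ∀ (c : k) (f : Fk), E.bc (c • f) = algebraMap K FK (E.ι c) * E.bc f := by
      intro c f
      rw [Algebra.smul_def, map_mul, E.bc_algebraMap]
    calc ∑ i, algebraMap K FK (a i) * E.bc (u i)
        = ∑ i, ∑ l, algebraMap K FK (b l : K)
            * (algebraMap K FK (E.ι (b.repr ⟨a i, ha i⟩ l)) * E.bc (u i)) := by
          refine Finset.sum_congr rfl fun i _ => ?_
          conv_lhs => rw [hrepr i]
          rw [map_sum, Finset.sum_mul]
          refine Finset.sum_congr rfl fun l _ => ?_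
          rw [map_mul]
          ring
      _ = ∑ l, ∑ i, algebraMap K FK (b l : K)
            * (algebraMap K FK (E.ι (b.repr ⟨a i, ha i⟩ l)) * E.bc (u i)) := Finset.sum_comm
      _ = ∑ l, algebraMap K FK (b l : K) * E.bc (∑ i, (b.repr ⟨a i, ha i⟩ l) • u i) := by
          refine Finset.sum_congr rfl fun l _ => ?_
          rw [map_sum, Finset.mul_sum]
          refine Finset.sum_congr rfl fun i _ => ?_
          rw [hbc]

/-- The valuation rings correspond if the orders do. -/
theorem esb_mem_iff (E : ConstExt k K Fk FK) (v : Place k Fk) (w : Place K FK)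
    (hw : ∀ f : Fk, w.ord (E.bc f) = v.ord f) (f : Fk) :
    E.bc f ∈ w.toValuationSubring ↔ f ∈ v.toValuationSubring := by
  rw [mem_iff_ord, mem_iff_ord, hw]
  have hinj : Function.Injective E.bc := E.bc.injective
  constructor
  · rintro (h | h)
    · left
      exact hinj (by rw [h, map_zero])
    · exact Or.inr h
  · rintro (h | h)
    · left
      rw [h, map_zero]
    · exact Or.inr h

variable [IsAlgClosed k] [CharZero k] [IsAlgClosed K] [CharZero K]

/-- Under the Gauss formula the order at an extension `w` of `v` of a combination with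
`k`-independent coefficients is determined by `v`. -/
theorem esb_ord_indep (h2b : GaussFormulaStatement) (E : ConstExt k K Fk FK) (v : Place k Fk)
    (w w' : Place K FK) (hw : ∀ f : Fk, w.ord (E.bc f) = v.ord f)
    (hw' : ∀ f : Fk, w'.ord (E.bc f) = v.ord f)
    (n : ℕ) (e : Fin n → K) (f : Fin n → Fk)
    (he : ∀ c : Fin n → k, ∑ i, E.ι (c i) * e i = 0 → ∀ i, c i = 0)
    (hf : ∃ i, f i ≠ 0) :
    w.ord (∑ i, algebraMap K FK (e i) * E.bc (f i))
      = w'.ord (∑ i, algebraMap K FK (e i) * E.bc (f i)) := by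
  classical
  obtain ⟨i₁, hi₁⟩ := hf
  have hne : (Finset.univ.filter fun i => f i ≠ 0).Nonempty :=
    ⟨i₁, by simp [hi₁]⟩
  obtain ⟨i₀, hi₀, hmin⟩ := Finset.exists_min_image _ (fun i => v.ord (f i)) hne
  rw [Finset.mem_filter] at hi₀
  have h1 : ∀ i, f i = 0 ∨ v.ord (f i₀) ≤ v.ord (f i) := by
    intro i
    by_cases hfi : f i = 0
    · exact Or.inl hfi
    · exact Or.inr (hmin i (by simp [hfi]))
  have h2 : ∃ i, f i ≠ 0 ∧ v.ord (f i) = v.ord (f i₀) := ⟨i₀, hi₀.2, rfl⟩
  have hA := (h2b k K Fk FK E v w (esb_mem_iff E v w hw)).2 n e f (v.ord (f i₀)) he h1 h2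
  have hB := (h2b k K Fk FK E v w' (esb_mem_iff E v w' hw')).2 n e f (v.ord (f i₀)) he h1 h2
  rw [hA.2, hB.2]

/-- The same for arbitrary `K`-combinations of elements of `bc Fk`. -/
theorem esb_ord_comb (h2b : GaussFormulaStatement) (E : ConstExt k K Fk FK) (v : Place k Fk)
    (w w' : Place K FK) (hw : ∀ f : Fk, w.ord (E.bc f) = v.ord f)
    (hw' : ∀ f : Fk, w'.ord (E.bc f) = v.ord f)
    (n : ℕ) (a : Fin n → K) (u : Fin n → Fk) :
    w.ord (∑ i, algebraMap K FK (a i) * E.bc (u i))
      = w'.ord (∑ i, algebraMap K FK (a i) * E.bc (u i)) := by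
  obtain ⟨n', e, u', he, hsum⟩ := esb_normalForm E n a u
  rw [hsum]
  by_cases hz : ∃ l, u' l ≠ 0
  · exact esb_ord_indep h2b E v w w' hw hw' n' e u' he hz
  · have hall : ∀ l, u' l = 0 := by
      intro l
      by_contra hl
      exact hz ⟨l, hl⟩
    have : ∑ l, algebraMap K FK (e l) * E.bc (u' l) = 0 :=
      Finset.sum_eq_zero fun l _ => by rw [hall l, map_zero, mul_zero]
    rw [this, Place.ord_zero, Place.ord_zero]

/-- Two extensions of `v` have the same order function. -/
theorem esb_ord_eq (h2b : GaussFormulaStatement) (E : ConstExt k K Fk FK) (v : Place k Fk)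
    (w w' : Place K FK) (hw : ∀ f : Fk, w.ord (E.bc f) = v.ord f)
    (hw' : ∀ f : Fk, w'.ord (E.bc f) = v.ord f) (h : FK) : w.ord h = w'.ord h := by
  rcases eq_or_ne h 0 with rfl | hh
  · rw [Place.ord_zero, Place.ord_zero]
  obtain ⟨n, e, u, d, hd, hmul⟩ := E.gen h
  have h1 := esb_ord_comb h2b E v w w' hw hw' n e d
  have h2 := esb_ord_comb h2b E v w w' hw hw' n e u
  rw [← hmul, w.ord_mul hh hd, w'.ord_mul hh hd] at h2
  omega

/-- **ESB-2c** Uniqueness of the extension of a place, from the Gauss formula. -/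
theorem placeExtUnique (h2b : GaussFormulaStatement) : PlaceExtUniqueStatement := by
  intro k K Fk FK _ _ _ _ _ _ _ _ _ _ E v w w' hw hw'
  refine place_ext_of_ord w w' fun f hf => ?_
  rw [← esb_ord_eq h2b E v w w' hw hw' f]
  exact hf

/-- **ESB-2** (assembled) Existence of an injective unramified extension map of places. -/
theorem placeExt (h2a : PlaceAboveStatement) (h2b : GaussFormulaStatement) :
    PlaceExtStatement := by
  intro k K Fk FK _ _ _ _ _ _ _ _ _ _ E
  have hex : ∀ v : Place k Fk, ∃ w : Place K FK, ∀ f : Fk, w.ord (E.bc f) = v.ord f := by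
    intro v
    obtain ⟨w, hw⟩ := h2a k K Fk FK E v
    exact ⟨w, (h2b k K Fk FK E v w hw).1⟩
  choose ext hext using hex
  refine ⟨ext, hext, ?_⟩
  intro v v' hvv'
  refine place_ext_of_ord v v' fun f hf => ?_
  rw [← hext v' f, ← hvv', hext v f]
  exact hf

end Fermat.Agent.H97

end
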