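import Fermat.Agent.H97.QES3Abstract
import Fermat.Agent.H36.ESE.TorsionInterfaces
import Fermat.Prelude.Thm_ModularCurve_coeffMap_qExpand

/-!
# P-ES / Q-ES-3: the Hecke operator `T_ℓ` commutes with the Galois action on `J₀(N)`

The degeneracy maps `α` (inclusion) and `β` (`q ↦ q^ℓ`) intertwine the coefficientwise Galois
automorphisms of the function fields of levels `N` and `N ℓ`, so the correspondence
`T_ℓ = α_* β^*` is Galois equivariant on all of `J₀(N)` (no torsion hypothesis and no hypothesis
on the Hecke inputs is needed: when the inputs are missing the operator is `0`).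
-/

set_option autoImplicit false

noncomputable section

namespace Fermat.Agent.H97

open ModularCurve AlgebraicCurve HahnSeries IntermediateField

section Intertwine

variable {L : Type*} [Field L] [Algebra ℚ L] (N ℓ : ℕ) [NeZero N] [NeZero ℓ]

theorem qes_intertwines_alpha (σ : L ≃ₐ[ℚ] L) :
    SemilinearAut.IntertwinesAlong (heckeAlphaBar L N ℓ).toRingHom
      (arithmeticGalois (modularFunctionFieldFull N) σ)
      (arithmeticGalois (modularFunctionFieldFull (N * ℓ)) σ) := fun x =>
  Subtype.ext <| by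
    show coeffMap (σ : L →+* L) ((heckeAlphaBar L N ℓ x : _) : LaurentSeries L)
      = ((heckeAlphaBar L N ℓ (arithmeticGalois (modularFunctionFieldFull N) σ • x) : _) :
          LaurentSeries L)
    rw [coe_heckeAlphaBar, coe_heckeAlphaBar, coe_arithmeticGalois_smul]

omit [NeZero N] in
theorem qes_intertwines_beta (σ : L ≃ₐ[ℚ] L) :
    SemilinearAut.IntertwinesAlong (heckeBetaBar L N ℓ).toRingHom
      (arithmeticGalois (modularFunctionFieldFull N) σ)
      (arithmeticGalois (modularFunctionFieldFull (N * ℓ)) σ) := fun x =>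
  Subtype.ext <| by
    show coeffMap (σ : L →+* L) ((heckeBetaBar L N ℓ x : _) : LaurentSeries L)
      = ((heckeBetaBar L N ℓ (arithmeticGalois (modularFunctionFieldFull N) σ • x) : _) :
          LaurentSeries L)
    rw [coe_heckeBetaBar, coe_heckeBetaBar, coe_arithmeticGalois_smul, coeffMap_qExpand]

/-- The total Hecke operator commutes with the Galois action on `Pic⁰`. -/
theorem qes_heckeOperatorAlong_galois (σ : L ≃ₐ[ℚ] L)
    (x : Pic0 L (laurentBaseChange L (modularFunctionFieldFull N))) :
    heckeOperatorAlong L N ℓ (σ • x) = σ • heckeOperatorAlong L N ℓ x := by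
  by_cases h : HeckeInputsAlong L N ℓ
  · obtain ⟨hα, hβ, hP, hfin, hFI, hN⟩ := h
    rw [heckeOperatorAlong_eq hα hβ hFI hfin hN, galois_smul_pic0_def, galois_smul_pic0_def]
    exact qes_pic0_correspondence_smul (heckeBetaBar L N ℓ) (heckeAlphaBar L N ℓ) hβ hα hFI hfin
      hN (qes_intertwines_beta N ℓ σ) (qes_intertwines_alpha N ℓ σ) x
  · rw [heckeOperatorAlong_of_not h, AddMonoidHom.zero_apply, AddMonoidHom.zero_apply,
      smul_zero]

end Intertwine

/-- **Q-ES-3** in its strongest form: `T_ℓ` commutes with `G_ℚ` on all of `J₀(N)`, for every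
prime `ℓ`. -/
theorem qes_heckeOperatorBar_galois (N : ℕ) [NeZero N] (ℓ : Nat.Primes)
    (σ : AlgebraicClosure ℚ ≃ₐ[ℚ] AlgebraicClosure ℚ) (x : JZero N) :
    heckeOperatorBar N ℓ (σ • x) = σ • heckeOperatorBar N ℓ x := by
  have : NeZero (ℓ : ℕ) := ⟨ℓ.2.ne_zero⟩
  rw [heckeOperatorBar_apply, heckeOperatorBar_apply]
  exact qes_heckeOperatorAlong_galois N ℓ σ x

/-- **Q-ES-3**, unconditional. -/
theorem heckeGaloisTorsionStatement (N : ℕ) [NeZero N] :
    Fermat.Agent.H36.HeckeGaloisTorsionStatement N :=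
  fun ℓ hℓ _ σ _ _ x _ => qes_heckeOperatorBar_galois N ⟨ℓ, hℓ⟩ σ x

/-- **Q-ES-3** in the form of the row (the hypothesis on the Hecke inputs is not used). -/
theorem heckeGaloisTorsionStatement_of_inputs (N : ℕ) [NeZero N]
    (_hH : ∀ (ℓ : ℕ) [NeZero ℓ], ℓ.Prime → ¬ ℓ ∣ N →
      HeckeInputsAlong (AlgebraicClosure ℚ) N ℓ) :
    Fermat.Agent.H36.HeckeGaloisTorsionStatement N :=
  heckeGaloisTorsionStatement N

end Fermat.Agent.H97

end
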