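import Fermat.Prelude.Def_AlgebraicCurve_Correspondence

/-!
# P-ES / Q-ES-3 (abstract part): correspondences commute with intertwined semilinear automorphisms

Let `φ ψ : F →ₐ[K] F'` be integral and let `g`, `g'` be semilinear automorphisms of `F`, `F'`
intertwined by both `φ` and `ψ`.  Then restriction of places, ramification indices, inertia
degrees, pullback, pushforward and the correspondence `ψ_* φ^*` on divisors and on `Pic⁰` are
equivariant.
-/

set_option autoImplicit false

noncomputable section

namespace Fermat.Agent.H97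

open AlgebraicCurve
open scoped Pointwise

section Inertia

variable {K F F' : Type*} [Field K] [Field F] [Field F']
  [Algebra K F] [Algebra K F'] [Algebra F F'] [IsScalarTower K F F']
  [Algebra.IsIntegral F F']

theorem qes_mem_restrict_smul {g : SemilinearAut K F} {g' : SemilinearAut K F'}
    (h : ∀ x : F, g' • algebraMap F F' x = algebraMap F F' (g • x)) (w : Place K F') (f : F) :
    g • f ∈ ((g' • w).restrict F).toValuationSubring ↔ f ∈ (w.restrict F).toValuationSubring := by
  rw [Place.mem_restrict_iff, Place.mem_restrict_iff, SemilinearAut.smul_toValuationSubring,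
    ← h f]
  exact ValuationSubring.smul_mem_pointwise_smul_iff

/-- The ring isomorphism between the valuation rings of `w|_F` and `(g' w)|_F` induced by `g`. -/
def qesRestrictEquiv {g : SemilinearAut K F} {g' : SemilinearAut K F'}
    (h : ∀ x : F, g' • algebraMap F F' x = algebraMap F F' (g • x)) (w : Place K F') :
    (w.restrict F).toValuationSubring ≃+* ((g' • w).restrict F).toValuationSubring where
  toFun x := ⟨g • (x : F), (qes_mem_restrict_smul h w x).mpr x.2⟩
  invFun y := ⟨g⁻¹ • (y : F), (qes_mem_restrict_smul h w (g⁻¹ • (y : F))).mp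
    (by rw [smul_inv_smul]; exact y.2)⟩
  left_inv x := Subtype.ext (inv_smul_smul g (x : F))
  right_inv y := Subtype.ext (smul_inv_smul g (y : F))
  map_mul' x y := Subtype.ext (smul_mul' g (x : F) (y : F))
  map_add' x y := Subtype.ext (smul_add g (x : F) (y : F))

theorem qes_inertiaDeg_smul {g : SemilinearAut K F} {g' : SemilinearAut K F'}
    (h : ∀ x : F, g' • algebraMap F F' x = algebraMap F F' (g • x)) (w : Place K F') :
    (g' • w).inertiaDeg F = w.inertiaDeg F := by
  unfold Place.inertiaDeg
  refine (Algebra.finrank_eq_of_equiv_equiv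
    (IsLocalRing.ResidueField.mapEquiv (qesRestrictEquiv h w))
    (SemilinearAut.smulResidueRingEquiv g' w) ?_).symm
  refine RingHom.ext fun x => ?_
  obtain ⟨a, rfl⟩ := IsLocalRing.residue_surjective x
  show Place.restrictResidueMap F (g' • w)
      (IsLocalRing.ResidueField.mapEquiv (qesRestrictEquiv h w) (IsLocalRing.residue _ a))
    = IsLocalRing.ResidueField.mapEquiv
        (SemilinearAut.smulValuationSubringEquiv g' w.toValuationSubring)
        (Place.restrictResidueMap F w (IsLocalRing.residue _ a))
  rw [IsLocalRing.ResidueField.mapEquiv_apply, IsLocalRing.ResidueField.map_residue,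
    Place.restrictResidueMap_residue, Place.restrictResidueMap_residue,
    IsLocalRing.ResidueField.mapEquiv_apply, IsLocalRing.ResidueField.map_residue]
  refine congrArg _ (Subtype.ext ?_)
  exact (h (a : F)).symm

end Inertia

section Abstract

variable {K F F' : Type*} [Field K] [Field F] [Field F'] [Algebra K F] [Algebra K F']

theorem qes_mem_smul_place (g : SemilinearAut K F) (v : Place K F) (f : F) :
    f ∈ (g • v).toValuationSubring ↔ g⁻¹ • f ∈ v.toValuationSubring := by
  rw [SemilinearAut.smul_toValuationSubring]
  exact ValuationSubring.mem_pointwise_smul_iff_inv_smul_mem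

theorem qes_mem_restrictAlong (φ : F →ₐ[K] F') (hφ : φ.toRingHom.IsIntegral) (w : Place K F')
    (f : F) : f ∈ (w.restrictAlong φ hφ).toValuationSubring ↔ φ f ∈ w.toValuationSubring :=
  Iff.rfl

theorem qes_ord_smul_inv (g : SemilinearAut K F) (v : Place K F) (f : F) :
    (g • v).ord f = v.ord (g⁻¹ • f) := by
  have h := SemilinearAut.ord_smul g v (g⁻¹ • f)
  rwa [smul_inv_smul] at h

theorem qes_restrictAlong_smul (φ : F →ₐ[K] F') (hφ : φ.toRingHom.IsIntegral)
    {g : SemilinearAut K F} {g' : SemilinearAut K F'}
    (h : SemilinearAut.IntertwinesAlong φ.toRingHom g g') (w : Place K F') :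
    (g' • w).restrictAlong φ hφ = g • (w.restrictAlong φ hφ) := by
  apply Place.ext
  ext f
  rw [qes_mem_restrictAlong, qes_mem_smul_place, qes_mem_smul_place, qes_mem_restrictAlong]
  have := h.inv f
  rw [show g'⁻¹ • φ f = φ (g⁻¹ • f) from this]

theorem qes_ramificationIndexAlong_smul (φ : F →ₐ[K] F')
    {g : SemilinearAut K F} {g' : SemilinearAut K F'}
    (h : SemilinearAut.IntertwinesAlong φ.toRingHom g g') (w : Place K F') :
    (g' • w).ramificationIndexAlong φ = w.ramificationIndexAlong φ := by
  let _ := algebraAlong φ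
  show Place.ramificationIndex (F := F) (g' • w) = Place.ramificationIndex (F := F) w
  unfold Place.ramificationIndex
  congr 1
  ext n
  refine and_congr Iff.rfl ⟨?_, ?_⟩
  · rintro ⟨f, hf, hfn⟩
    refine ⟨g⁻¹ • f, by simpa using hf, ?_⟩
    rw [← hfn, qes_ord_smul_inv]
    exact congrArg _ (h.inv f).symm
  · rintro ⟨f, hf, hfn⟩
    refine ⟨g • f, by simpa using hf, ?_⟩
    rw [← hfn, qes_ord_smul_inv]
    have := h.inv (g • f)
    rw [inv_smul_smul] at this
    exact congrArg _ this

theorem qes_inertiaDegAlong_smul (φ : F →ₐ[K] F') (hφ : φ.toRingHom.IsIntegral)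
    {g : SemilinearAut K F} {g' : SemilinearAut K F'}
    (h : SemilinearAut.IntertwinesAlong φ.toRingHom g g') (w : Place K F') :
    (g' • w).inertiaDegAlong φ hφ = w.inertiaDegAlong φ hφ := by
  let _ := algebraAlong φ
  have := isScalarTower_along φ
  have := isIntegral_along φ hφ
  exact qes_inertiaDeg_smul (F := F) (g := g) (g' := g') h w

/-- Pullback of divisors along `φ` is equivariant for an intertwined pair. -/
theorem qes_pullbackAlong_smul [HasPrincipalDivisors K F'] (φ : F →ₐ[K] F')
    (hφ : φ.toRingHom.IsIntegral) {g : SemilinearAut K F} {g' : SemilinearAut K F'}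
    (h : SemilinearAut.IntertwinesAlong φ.toRingHom g g') (D : Divisor K F) :
    Divisor.pullbackAlong φ hφ (g • D) = g' • Divisor.pullbackAlong φ hφ D := by
  ext w
  rw [Divisor.pullbackAlong_apply, SemilinearAut.divisor_smul_apply,
    SemilinearAut.divisor_smul_apply, Divisor.pullbackAlong_apply,
    qes_ramificationIndexAlong_smul φ h.inv w, qes_restrictAlong_smul φ hφ h.inv w]

/-- Pushforward of divisors along `ψ` is equivariant for an intertwined pair. -/
theorem qes_pushforwardAlong_smul (ψ : F →ₐ[K] F')
    (hψ : ψ.toRingHom.IsIntegral) {g : SemilinearAut K F} {g' : SemilinearAut K F'}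
    (h : SemilinearAut.IntertwinesAlong ψ.toRingHom g g') (D : Divisor K F') :
    Divisor.pushforwardAlong ψ hψ (g' • D) = g • Divisor.pushforwardAlong ψ hψ D := by
  induction D using Finsupp.induction with
  | zero => rw [smul_zero, map_zero, smul_zero]
  | single_add w n D _ _ ih =>
    rw [smul_add, map_add, map_add, smul_add, ih, SemilinearAut.smul_single,
      Divisor.pushforwardAlong_single, Divisor.pushforwardAlong_single,
      SemilinearAut.smul_single, qes_restrictAlong_smul ψ hψ h w,
      qes_inertiaDegAlong_smul ψ hψ h w]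

/-- The correspondence `ψ_* φ^*` on divisors is equivariant for a pair intertwined by both maps. -/
theorem qes_correspondence_smul [HasPrincipalDivisors K F'] (φ ψ : F →ₐ[K] F')
    (hφ : φ.toRingHom.IsIntegral) (hψ : ψ.toRingHom.IsIntegral)
    {g : SemilinearAut K F} {g' : SemilinearAut K F'}
    (h : SemilinearAut.IntertwinesAlong φ.toRingHom g g')
    (h' : SemilinearAut.IntertwinesAlong ψ.toRingHom g g') (D : Divisor K F) :
    Divisor.correspondence φ ψ hφ hψ (g • D) = g • Divisor.correspondence φ ψ hφ hψ D := by
  rw [Divisor.correspondence_apply, Divisor.correspondence_apply,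
    qes_pullbackAlong_smul φ hφ h D, qes_pushforwardAlong_smul ψ hψ h']

/-- The correspondence `ψ_* φ^*` on `Pic⁰` is equivariant for a pair intertwined by both maps. -/
theorem qes_pic0_correspondence_smul [HasPrincipalDivisors K F'] (φ ψ : F →ₐ[K] F')
    (hφ : φ.toRingHom.IsIntegral) (hψ : ψ.toRingHom.IsIntegral)
    (hFI : FundamentalIdentityAlong K φ hφ)
    (hfin : FiniteAlong K ψ) (hN : NormFormulaAlong K ψ hfin)
    {g : SemilinearAut K F} {g' : SemilinearAut K F'}
    (h : SemilinearAut.IntertwinesAlong φ.toRingHom g g')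
    (h' : SemilinearAut.IntertwinesAlong ψ.toRingHom g g') (x : Pic0 K F) :
    Pic0.correspondence φ ψ hφ hψ hFI hfin hN (g • x)
      = g • Pic0.correspondence φ ψ hφ hψ hFI hfin hN x := by
  obtain ⟨D, rfl⟩ := Pic0.mk_surjective x
  rw [SemilinearAut.pic0_smul_mk, Pic0.correspondence_mk, Pic0.correspondence_mk,
    SemilinearAut.pic0_smul_mk]
  refine congrArg Pic0.mk (Subtype.ext ?_)
  rw [Pic0.coe_degZeroCorrespondence, SemilinearAut.coe_degZeroSMulHom,
    SemilinearAut.coe_degZeroSMulHom, Pic0.coe_degZeroCorrespondence]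
  exact qes_correspondence_smul φ ψ hφ hψ h h' (D : Divisor K F)

end Abstract

end Fermat.Agent.H97

end
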