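import Mathlib
import Fermat.Agent.H6.S16UB.Interfaces

/-!
# S16 upper bound, the cases `ℓ = 3` (mod 3, `p ≡ 1 mod 3`) and `ℓ = 2` (mod 4, `p ≡ 1 mod 4`)

Pure power-series / integer arithmetic on top of the trace identity `TraceSqStatement`,
`UpStatement` and `UpSqStatement` of `Fermat.Agent.H6.S16UB`.
-/

set_option autoImplicit false

namespace Fermat.Agent.H97

open Fermat.Agent.H6.S16UB
open UpperHalfPlane CongruenceSubgroup Finset
open scoped MatrixGroups ModularForm Real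

/-- Convolution square of an integer sequence. -/
def conv (a : ℕ → ℤ) (n : ℕ) : ℤ := ∑ ij ∈ antidiagonal n, a ij.1 * a ij.2

/-- The coefficientwise form of the trace identity for an integer sequence `a`. -/
def TrIdentity (p : ℕ) (a : ℕ → ℤ) : Prop :=
  ∀ n : ℕ, 1 ≤ n →
    (p : ℤ) * conv a n + conv (fun i => a (p * i)) (p * n)
      = a 0 ^ 2 * ((p : ℤ) + 1) * (240 * (ArithmeticFunction.sigma 3 n : ℤ))

/-- Coefficient extraction from `TraceSqStatement`. -/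
theorem trIdentity_of_traceSq (hT : TraceSqStatement) {p : ℕ} (hp : p.Prime)
    (H : ModularForm (Gamma0 p) 2) (a : ℕ → ℤ)
    (ha : ∀ n, PowerSeries.coeff n (qExpansion 1 (⇑H)) = (a n : ℂ)) :
    TrIdentity p a := by
  intro n hn
  have h := congrArg (PowerSeries.coeff n) (hT p hp H)
  have hn0 : n ≠ 0 := by omega
  have hpc : (p : PowerSeries ℂ) = PowerSeries.C (p : ℂ) := (map_natCast PowerSeries.C p).symm
  have h240 : (240 : PowerSeries ℂ) = PowerSeries.C (240 : ℂ) := by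
    rw [← map_ofNat (PowerSeries.C (R := ℂ)) 240]
  rw [map_add, hpc, PowerSeries.coeff_C_mul, pow_two, PowerSeries.coeff_mul, upSeries,
    PowerSeries.coeff_mk, pow_two, PowerSeries.coeff_mul, PowerSeries.coeff_C_mul, map_add,
    PowerSeries.coeff_one, if_neg hn0, zero_add, h240, PowerSeries.coeff_C_mul,
    PowerSeries.coeff_map, sigmaSeries, PowerSeries.coeff_mk, if_neg hn0] at h
  simp only [upSeries, PowerSeries.coeff_mk, ha] at h
  unfold conv
  have h' : (((p : ℤ) * ∑ ij ∈ antidiagonal n, a ij.1 * a ij.2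
      + ∑ ij ∈ antidiagonal (p * n), a (p * ij.1) * a (p * ij.2) : ℤ) : ℂ)
      = ((a 0 ^ 2 * ((p : ℤ) + 1) * (240 * (ArithmeticFunction.sigma 3 n : ℤ)) : ℤ) : ℂ) := by
    push_cast
    exact h
  exact_mod_cast h'

/-- The "interior" part of the convolution square. -/
def mid (a : ℕ → ℤ) (n : ℕ) : ℤ := ∑ k ∈ Ico 1 n, a k * a (n - k)

theorem conv_eq (a : ℕ → ℤ) {n : ℕ} (hn : 1 ≤ n) :
    conv a n = 2 * a 0 * a n + mid a n := by
  unfold conv mid
  rw [Finset.Nat.sum_antidiagonal_eq_sum_range_succ (fun i j => a i * a j) n,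
    Finset.sum_range_succ, Finset.range_eq_Ico, Finset.sum_eq_sum_Ico_succ_bot (by omega)]
  simp only [Nat.sub_zero, Nat.sub_self, zero_add]
  ring

/-- The trace identity with the boundary terms split off. -/
theorem trIdentity_reduced {p : ℕ} (hp : 0 < p) {a : ℕ → ℤ} (hTR : TrIdentity p a)
    (hQ : ∀ n, a (p * (p * n)) = a n) {n : ℕ} (hn : 1 ≤ n) :
    2 * ((p : ℤ) + 1) * a 0 * a n + (p : ℤ) * mid a n + mid (fun i => a (p * i)) (p * n)
      = a 0 ^ 2 * ((p : ℤ) + 1) * (240 * (ArithmeticFunction.sigma 3 n : ℤ)) := by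
  have h := hTR n hn
  have hpn : 1 ≤ p * n := Nat.mul_pos hp (by omega)
  rw [conv_eq a hn, conv_eq (fun i => a (p * i)) hpn] at h
  simp only [Nat.mul_zero, hQ] at h
  rw [← h]
  ring

theorem mid_smul {a b : ℕ → ℤ} {d : ℤ} (h : ∀ k, 1 ≤ k → a k = d * b k) (n : ℕ) :
    mid a n = d ^ 2 * mid b n := by
  unfold mid
  rw [Finset.mul_sum]
  refine Finset.sum_congr rfl fun k hk => ?_
  rw [Finset.mem_Ico] at hk
  rw [h k hk.1, h (n - k) (by omega)]
  ring

theorem mid_dvd {a : ℕ → ℤ} {d : ℤ} (h : ∀ k, 1 ≤ k → d ∣ a k) (n : ℕ) :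
    d ^ 2 ∣ mid a n := by
  unfold mid
  refine Finset.dvd_sum fun k hk => ?_
  rw [Finset.mem_Ico] at hk
  rw [pow_two]
  exact mul_dvd_mul (h k hk.1) (h (n - k) (by omega))

/-- Modulo `2` the interior convolution square is the "Frobenius": only the diagonal term
survives. -/
theorem mid_mod_two (b : ℕ → ℤ) (n : ℕ) :
    (2 : ℤ) ∣ mid b n - (if Even n ∧ n ≠ 0 then b (n / 2) else 0) := by
  have hiff := ZMod.intCast_zmod_eq_zero_iff_dvd
    (mid b n - (if Even n ∧ n ≠ 0 then b (n / 2) else 0)) 2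
  rw [Nat.cast_ofNat] at hiff
  rw [← hiff]
  unfold mid
  push_cast
  -- split the sum into the off-diagonal part and the diagonal part
  have hsplit : ∀ k : ℕ, ((b k : ZMod 2) * (b (n - k) : ZMod 2))
      = (if 2 * k = n then 0 else (b k : ZMod 2) * (b (n - k) : ZMod 2))
        + (if 2 * k = n then (b k : ZMod 2) * (b (n - k) : ZMod 2) else 0) := by
    intro k
    split_ifs <;> simp
  rw [Finset.sum_congr rfl (fun k _ => hsplit k), Finset.sum_add_distrib]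
  have hoff : ∑ k ∈ Ico 1 n,
      (if 2 * k = n then 0 else (b k : ZMod 2) * (b (n - k) : ZMod 2)) = 0 := by
    refine Finset.sum_involution (fun k _ => n - k) ?_ ?_ ?_ ?_
    · intro k hk
      rw [Finset.mem_Ico] at hk
      by_cases h2 : 2 * k = n
      · have : 2 * (n - k) = n := by omega
        rw [if_pos h2, if_pos this, add_zero]
      · have : ¬ 2 * (n - k) = n := by omega
        have hk' : n - (n - k) = k := by omega
        rw [if_neg h2, if_neg this, hk', mul_comm (b (n - k) : ZMod 2), ← two_mul]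
        have h20 : (2 : ZMod 2) = 0 := by decide
        rw [h20, zero_mul]
    · intro k hk hne
      rw [Finset.mem_Ico] at hk
      by_cases h2 : 2 * k = n
      · rw [if_pos h2] at hne
        exact absurd rfl hne
      · omega
    · intro k hk
      rw [Finset.mem_Ico] at hk ⊢
      omega
    · intro k hk
      rw [Finset.mem_Ico] at hk
      show n - (n - k) = k
      omega
  rw [hoff, zero_add]
  have hsq : ∀ x : ZMod 2, x * x = x := by decide
  by_cases he : Even n ∧ n ≠ 0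
  · rw [if_pos he]
    obtain ⟨⟨m, hm⟩, hn0⟩ := he
    have hmem : n / 2 ∈ Ico 1 n := by
      rw [Finset.mem_Ico]; omega
    rw [Finset.sum_eq_single_of_mem (n / 2) hmem]
    · have h1 : 2 * (n / 2) = n := by omega
      have h2 : n - n / 2 = n / 2 := by omega
      rw [if_pos h1, h2, hsq, sub_self]
    · intro k _ hk
      rw [if_neg (by omega)]
  · rw [if_neg he]
    have : ∑ k ∈ Ico 1 n,
        (if 2 * k = n then (b k : ZMod 2) * (b (n - k) : ZMod 2) else 0) = 0 := by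
      refine Finset.sum_eq_zero fun k hk => ?_
      rw [Finset.mem_Ico] at hk
      rw [if_neg]
      intro h2
      exact he ⟨⟨k, by omega⟩, by omega⟩
    rw [this]
    simp

/-! ### Transport of the hypotheses to `U_p H` -/

/-- The data extracted from a form `H` with integral `q`-expansion `a`: the trace identity and
`U_p² = 1` for `a` and for `a' = (a (p n))_n`. -/
theorem data_of_form (hT : TraceSqStatement) (hU : UpStatement) (hU2 : UpSqStatement)
    {p : ℕ} (hp : p.Prime) (H : ModularForm (Gamma0 p) 2) (a : ℕ → ℤ)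
    (ha : ∀ n, PowerSeries.coeff n (qExpansion 1 (⇑H)) = (a n : ℂ)) :
    TrIdentity p a ∧ TrIdentity p (fun n => a (p * n)) ∧ (∀ n, a (p * (p * n)) = a n) := by
  obtain ⟨K, hK⟩ := hU p hp H
  have ha' : ∀ n, PowerSeries.coeff n (qExpansion 1 (⇑K)) = (((fun n => a (p * n)) n : ℤ) : ℂ) := by
    intro n
    rw [hK, upSeries, PowerSeries.coeff_mk, ha]
  have hQ : ∀ n, a (p * (p * n)) = a n := by
    intro n
    have h := hU2 p hp H n
    rw [ha, ha] at h
    exact_mod_cast h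
  exact ⟨trIdentity_of_traceSq hT hp H a ha,
    trIdentity_of_traceSq hT hp K (fun n => a (p * n)) ha', hQ⟩

theorem sigma_three_prime {p : ℕ} (hp : p.Prime) :
    (ArithmeticFunction.sigma 3 p : ℤ) = 1 + (p : ℤ) ^ 3 := by
  have h := ArithmeticFunction.sigma_apply_prime_pow (k := 3) (i := 1) hp
  rw [pow_one] at h
  rw [h]
  simp [Finset.sum_range_succ]

theorem sigma_three_one : (ArithmeticFunction.sigma 3 1 : ℤ) = 1 := by
  simp

/-! ### The case `ℓ = 3` -/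

theorem key_three {p : ℕ} (hp : 0 < p) {a : ℕ → ℤ} (hTR : TrIdentity p a)
    (hQ : ∀ n, a (p * (p * n)) = a n) (h3 : ∀ n, 1 ≤ n → (3 : ℤ) ∣ a n) {n : ℕ} (hn : 1 ≤ n) :
    (9 : ℤ) ∣ 2 * ((p : ℤ) + 1) * a 0 * a n
      - a 0 ^ 2 * ((p : ℤ) + 1) * (240 * (ArithmeticFunction.sigma 3 n : ℤ)) := by
  have h := trIdentity_reduced hp hTR hQ hn
  have h1 : (3 : ℤ) ^ 2 ∣ mid a n := mid_dvd h3 n
  have h2 : (3 : ℤ) ^ 2 ∣ mid (fun i => a (p * i)) (p * n) :=
    mid_dvd (fun k hk => h3 (p * k) (Nat.mul_pos hp hk)) (p * n)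
  have h9 : (3 : ℤ) ^ 2 = 9 := by norm_num
  rw [h9] at h1 h2
  have e : 2 * ((p : ℤ) + 1) * a 0 * a n
      - a 0 ^ 2 * ((p : ℤ) + 1) * (240 * (ArithmeticFunction.sigma 3 n : ℤ))
      = -((p : ℤ) * mid a n + mid (fun i => a (p * i)) (p * n)) := by
    rw [← h]; ring
  rw [e]
  exact (dvd_neg.mpr (dvd_add (Dvd.dvd.mul_left h1 _) h2))

/-- (UB3) `ℓ = 3`, modulo `3`, `p ≡ 1 mod 3`. -/
theorem noUnitThree (hT : TraceSqStatement) (hU : UpStatement) (hU2 : UpSqStatement) :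
    NoUnitThreeStatement := by
  intro p hp hp3 H a ha h3
  have hp0 : 0 < p := hp.pos
  obtain ⟨hTR, hTR', hQ⟩ := data_of_form hT hU hU2 hp H a ha
  have h3' : ∀ n, 1 ≤ n → (3 : ℤ) ∣ a n := by
    intro n hn
    have h := h3 n hn
    norm_num at h
    exact h
  have hQ' : ∀ n, (fun n => a (p * n)) (p * (p * n)) = (fun n => a (p * n)) n := by
    intro n
    exact hQ (p * n)
  have k1 := key_three hp0 hTR hQ h3' (n := p) hp0
  have k2 := key_three hp0 hTR' hQ' (fun n hn => h3' (p * n) (Nat.mul_pos hp0 hn))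
    (n := 1) le_rfl
  simp only [Nat.mul_zero, Nat.mul_one] at k2
  rw [sigma_three_prime hp] at k1
  rw [sigma_three_one] at k2
  have k3 := dvd_sub k2 k1
  have e : 2 * ((p : ℤ) + 1) * a 0 * a p - a 0 ^ 2 * ((p : ℤ) + 1) * (240 * 1)
      - (2 * ((p : ℤ) + 1) * a 0 * a p - a 0 ^ 2 * ((p : ℤ) + 1) * (240 * (1 + (p : ℤ) ^ 3)))
      = 3 * (80 * (((p : ℤ) + 1) * ((p : ℤ) ^ 3 * a 0 ^ 2))) := by ring
  rw [e] at k3
  have k4 : (3 : ℤ) ∣ 80 * (((p : ℤ) + 1) * ((p : ℤ) ^ 3 * a 0 ^ 2)) := by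
    have h93 : (9 : ℤ) = 3 * 3 := by norm_num
    rw [h93] at k3
    exact (mul_dvd_mul_iff_left (by norm_num : (3 : ℤ) ≠ 0)).mp k3
  have hpz : (p : ℤ) % 3 = 1 := by exact_mod_cast hp3
  have pr3 : Prime (3 : ℤ) := Int.prime_three
  show ((3 : ℕ) : ℤ) ∣ a 0
  rw [Nat.cast_ofNat]
  rcases pr3.dvd_or_dvd k4 with h | h
  · norm_num at h
  rcases pr3.dvd_or_dvd h with h | h
  · omega
  rcases pr3.dvd_or_dvd h with h | h
  · have := pr3.dvd_of_dvd_pow h
    omega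
  · exact pr3.dvd_of_dvd_pow h

/-! ### The case `ℓ = 2` -/

theorem zmod_two_eq_one_of_not_dvd {x : ℤ} (h : ¬ (2 : ℤ) ∣ x) : (x : ZMod 2) = 1 := by
  have hiff := ZMod.intCast_zmod_eq_zero_iff_dvd x 2
  rw [Nat.cast_ofNat] at hiff
  have h1 : (x : ZMod 2) ≠ 0 := fun h0 => h (hiff.mp h0)
  have hall : ∀ y : ZMod 2, y ≠ 0 → y = 1 := by decide
  exact hall _ h1

theorem zmod_two_eq_of_dvd_sub {x y : ℤ} (h : (2 : ℤ) ∣ x - y) : (x : ZMod 2) = (y : ZMod 2) := by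
  have hiff := ZMod.intCast_zmod_eq_zero_iff_dvd (x - y) 2
  rw [Nat.cast_ofNat] at hiff
  have h0 := hiff.mpr h
  push_cast at h0
  exact sub_eq_zero.mp h0

theorem dvd_two_of_zmod_two_eq {x y : ℤ} (h : (x : ZMod 2) = (y : ZMod 2)) : (2 : ℤ) ∣ x - y := by
  have hiff := ZMod.intCast_zmod_eq_zero_iff_dvd (x - y) 2
  rw [Nat.cast_ofNat] at hiff
  apply hiff.mp
  push_cast
  exact sub_eq_zero.mpr h

/-- The two diagonal terms agree. -/
theorem diag_eq {p : ℕ} (hp4 : p % 4 = 1) {a : ℕ → ℤ} (hQ : ∀ n, a (p * (p * n)) = a n)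
    (d : ℤ) (n : ℕ) :
    (if Even (p * n) ∧ p * n ≠ 0 then (fun i => a (p * i) / d) (p * n / 2) else 0)
      = (if Even n ∧ n ≠ 0 then a (n / 2) / d else 0) := by
  have hp : 0 < p := by omega
  have hpodd : ¬ Even p := by
    rw [Nat.even_iff]; omega
  have hev : Even (p * n) ↔ Even n := by
    rw [Nat.even_mul]
    exact ⟨fun h => h.resolve_left hpodd, Or.inr⟩
  by_cases he : Even n ∧ n ≠ 0
  · have h1 : Even (p * n) ∧ p * n ≠ 0 := ⟨hev.mpr he.1, Nat.mul_ne_zero (by omega) he.2⟩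
    rw [if_pos h1, if_pos he]
    obtain ⟨⟨j, hj⟩, -⟩ := he
    have e1 : n / 2 = j := by omega
    have e2 : p * n / 2 = p * j := by
      have : p * n = 2 * (p * j) := by rw [hj]; ring
      rw [this, Nat.mul_div_cancel_left _ (by norm_num : 0 < 2)]
    show a (p * (p * n / 2)) / d = a (n / 2) / d
    rw [e1, e2, hQ]
  · have h1 : ¬ (Even (p * n) ∧ p * n ≠ 0) := by
      rintro ⟨h1, h2⟩
      exact he ⟨hev.mp h1, fun h0 => h2 (by rw [h0, Nat.mul_zero])⟩
    rw [if_neg h1, if_neg he]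

/-- `p + 1 = 2 m` with `m` odd. -/
theorem exists_half {p : ℕ} (hp4 : p % 4 = 1) :
    ∃ m : ℤ, (p : ℤ) + 1 = 2 * m ∧ ¬ (2 : ℤ) ∣ m ∧ ¬ (2 : ℤ) ∣ (p : ℤ) := by
  have hpz : (p : ℤ) % 4 = 1 := by exact_mod_cast hp4
  refine ⟨((p : ℤ) + 1) / 2, ?_, ?_, ?_⟩ <;> omega

/-- Step A: `8 ∣ a n` for all `n ≥ 1`. -/
theorem eight_dvd {p : ℕ} (hp4 : p % 4 = 1) {a : ℕ → ℤ} (hTR : TrIdentity p a)
    (hQ : ∀ n, a (p * (p * n)) = a n) (h4 : ∀ n, 1 ≤ n → (4 : ℤ) ∣ a n)
    (h0 : ¬ (2 : ℤ) ∣ a 0) {n : ℕ} (hn : 1 ≤ n) : (8 : ℤ) ∣ a n := by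
  have hp : 0 < p := by omega
  have hab : ∀ k, 1 ≤ k → a k = 4 * (fun k => a k / 4) k :=
    fun k hk => (Int.mul_ediv_cancel' (h4 k hk)).symm
  have hab' : ∀ k, 1 ≤ k → (fun i => a (p * i)) k = 4 * (fun i => a (p * i) / 4) k :=
    fun k hk => hab (p * k) (Nat.mul_pos hp hk)
  have h := trIdentity_reduced hp hTR hQ hn
  rw [mid_smul hab n, mid_smul hab' (p * n)] at h
  obtain ⟨m, hm, hm2, hp2⟩ := exists_half hp4
  have hn4 : a n = 4 * (a n / 4) := hab n hn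
  have h' : m * a 0 * (a n / 4) + (p : ℤ) * mid (fun k => a k / 4) n
      + mid (fun i => a (p * i) / 4) (p * n)
      = 30 * (m * a 0 ^ 2 * (ArithmeticFunction.sigma 3 n : ℤ)) := by
    have h16 : (16 : ℤ) * (m * a 0 * (a n / 4) + (p : ℤ) * mid (fun k => a k / 4) n
        + mid (fun i => a (p * i) / 4) (p * n))
        = 16 * (30 * (m * a 0 ^ 2 * (ArithmeticFunction.sigma 3 n : ℤ))) := by
      rw [hm] at h
      linear_combination h - 4 * m * a 0 * hn4
    exact mul_left_cancel₀ (by norm_num) h16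
  have hm1 := zmod_two_eq_of_dvd_sub (mid_mod_two (fun k => a k / 4) n)
  have hm2' := zmod_two_eq_of_dvd_sub (mid_mod_two (fun i => a (p * i) / 4) (p * n))
  rw [diag_eq hp4 hQ 4 n] at hm2'
  have hz := congrArg (Int.cast : ℤ → ZMod 2) h'
  push_cast at hz
  rw [hm1, hm2', zmod_two_eq_one_of_not_dvd hm2, zmod_two_eq_one_of_not_dvd h0] at hz
  have hpz : ((p : ℤ) : ZMod 2) = 1 := zmod_two_eq_one_of_not_dvd hp2
  rw [Int.cast_natCast] at hpz
  rw [hpz] at hz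
  have h30 : (30 : ZMod 2) = 0 := by decide
  rw [h30, zero_mul, one_mul, one_mul, one_mul, add_assoc, CharTwo.add_self_eq_zero,
    add_zero] at hz
  have hb2 : (2 : ℤ) ∣ a n / 4 := by
    have := dvd_two_of_zmod_two_eq (x := a n / 4) (y := 0) (by rw [hz]; simp)
    simpa using this
  rw [hn4]
  obtain ⟨c, hc⟩ := hb2
  exact ⟨c, by rw [hc]; ring⟩

/-- Step B: `a n ≡ 8 σ₃(n) mod 16` for all `n ≥ 1`. -/
theorem key_two {p : ℕ} (hp4 : p % 4 = 1) {a : ℕ → ℤ} (hTR : TrIdentity p a)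
    (hQ : ∀ n, a (p * (p * n)) = a n) (h4 : ∀ n, 1 ≤ n → (4 : ℤ) ∣ a n)
    (h0 : ¬ (2 : ℤ) ∣ a 0) {n : ℕ} (hn : 1 ≤ n) :
    (16 : ℤ) ∣ a n - 8 * (ArithmeticFunction.sigma 3 n : ℤ) := by
  have hp : 0 < p := by omega
  have h8 : ∀ k, 1 ≤ k → (8 : ℤ) ∣ a k := fun k hk => eight_dvd hp4 hTR hQ h4 h0 hk
  have h := trIdentity_reduced hp hTR hQ hn
  obtain ⟨X, hX⟩ : (8 : ℤ) ^ 2 ∣ mid a n := mid_dvd h8 n
  obtain ⟨Y, hY⟩ : (8 : ℤ) ^ 2 ∣ mid (fun i => a (p * i)) (p * n) :=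
    mid_dvd (fun k hk => h8 (p * k) (Nat.mul_pos hp hk)) (p * n)
  obtain ⟨c, hc⟩ := h8 n hn
  obtain ⟨m, hm, hm2, hp2⟩ := exists_half hp4
  rw [hX, hY, hm, hc] at h
  have h' : m * a 0 * c + 2 * ((p : ℤ) * X) + 2 * Y
      = 15 * (m * a 0 ^ 2 * (ArithmeticFunction.sigma 3 n : ℤ)) := by
    have h32 : (32 : ℤ) * (m * a 0 * c + 2 * ((p : ℤ) * X) + 2 * Y)
        = 32 * (15 * (m * a 0 ^ 2 * (ArithmeticFunction.sigma 3 n : ℤ))) := by
      linear_combination h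
    exact mul_left_cancel₀ (by norm_num) h32
  have hz := congrArg (Int.cast : ℤ → ZMod 2) h'
  push_cast at hz
  have h2 : (2 : ZMod 2) = 0 := by decide
  have h15 : (15 : ZMod 2) = 1 := by decide
  rw [zmod_two_eq_one_of_not_dvd hm2, zmod_two_eq_one_of_not_dvd h0, h2, h15] at hz
  simp only [zero_mul, add_zero, one_mul, one_pow] at hz
  have hcs : (2 : ℤ) ∣ c - (ArithmeticFunction.sigma 3 n : ℤ) :=
    dvd_two_of_zmod_two_eq (by rw [hz]; push_cast; rfl)
  obtain ⟨e, he⟩ := hcs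
  rw [hc]
  exact ⟨e, by linear_combination 8 * he⟩

/-- (UB4) `ℓ = 2`, modulo `4`, `p ≡ 1 mod 4`. -/
theorem noUnitFour (hT : TraceSqStatement) (hU : UpStatement) (hU2 : UpSqStatement) :
    NoUnitFourStatement := by
  intro p hp hp4 H a ha h4
  by_contra h0
  have h0' : ¬ (2 : ℤ) ∣ a 0 := by
    intro h
    apply h0
    rw [Nat.cast_ofNat]
    exact h
  have hp0 : 0 < p := hp.pos
  obtain ⟨hTR, hTR', hQ⟩ := data_of_form hT hU hU2 hp H a ha
  have h4' : ∀ n, 1 ≤ n → (4 : ℤ) ∣ a n := by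
    intro n hn
    have h := h4 n hn
    norm_num at h
    exact h
  have hQ' : ∀ n, (fun n => a (p * n)) (p * (p * n)) = (fun n => a (p * n)) n := by
    intro n
    exact hQ (p * n)
  have h0'' : ¬ (2 : ℤ) ∣ (fun n => a (p * n)) 0 := by
    show ¬ (2 : ℤ) ∣ a (p * 0)
    rw [Nat.mul_zero]
    exact h0'
  have k1 := key_two hp4 hTR hQ h4' h0' (n := p) hp0
  have k2 := key_two hp4 hTR' hQ' (fun n hn => h4' (p * n) (Nat.mul_pos hp0 hn)) h0''
    (n := 1) le_rfl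
  simp only [Nat.mul_one] at k2
  rw [sigma_three_prime hp] at k1
  rw [sigma_three_one] at k2
  have k3 := dvd_sub k2 k1
  have e : a p - 8 * 1 - (a p - 8 * (1 + (p : ℤ) ^ 3)) = 8 * (p : ℤ) ^ 3 := by ring
  rw [e] at k3
  have k4 : (2 : ℤ) ∣ (p : ℤ) ^ 3 := by
    have h168 : (16 : ℤ) = 8 * 2 := by norm_num
    rw [h168] at k3
    exact (mul_dvd_mul_iff_left (by norm_num : (8 : ℤ) ≠ 0)).mp k3
  have k5 : (2 : ℤ) ∣ (p : ℤ) := Int.prime_two.dvd_of_dvd_pow k4
  have hpz : (p : ℤ) % 4 = 1 := by exact_mod_cast hp4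
  omega

end Fermat.Agent.H97
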