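import Mathlib
import Fermat.Agent.H29.ESB.Interfaces
import Fermat.Agent.H29.ResidueConst
import Fermat.Agent.H23.PlaceBasic
import Fermat.Agent.H97.ESB2c

/-!
# P-ES / ES-B, row ESB-2b (helper97, second attempt): the Gauss formula

For a constant field extension `E : ConstExt k K Fk FK`, a place `v` of `Fk` and a place `w` of
`FK` whose valuation ring restricts to that of `v`:
`w.ord (bc f) = v.ord f`, and `w.ord (∑ e_i bc f_i) = min v.ord f_i` for `k`-independent `e_i`.
-/

set_option autoImplicit false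

noncomputable section

namespace Fermat.Agent.H97

open AlgebraicCurve IntermediateField Fermat.Agent.H29 Fermat.Agent.H23

section general

variable {K F : Type*} [Field K] [Field F] [Algebra K F]

/-- Ultrametric inequality for finite sums. -/
theorem esb_ord_sum_ge (w : Place K F) {ι : Type*} (s : Finset ι) (g : ι → F) (n : ℤ)
    (h : ∀ i ∈ s, g i = 0 ∨ n ≤ w.ord (g i)) :
    ∑ i ∈ s, g i = 0 ∨ n ≤ w.ord (∑ i ∈ s, g i) := by
  classical
  induction s using Finset.induction_on with
  | empty => left; simp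
  | insert a s ha ih =>
    rw [Finset.sum_insert ha]
    by_cases h0 : g a + ∑ i ∈ s, g i = 0
    · exact Or.inl h0
    · right
      exact ord_add_ge w h0 n (h a (Finset.mem_insert_self _ _))
        (ih fun i hi => h i (Finset.mem_insert_of_mem hi))

end general

variable {k K Fk FK : Type} [Field k] [Field K] [Field Fk] [Field FK]
  [Algebra k Fk] [Algebra K FK]

section basic

theorem esb_bc_ne_zero (E : ConstExt k K Fk FK) {f : Fk} (hf : f ≠ 0) : E.bc f ≠ 0 := by
  intro h
  exact hf (E.bc.injective (by rw [h, map_zero]))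

variable (E : ConstExt k K Fk FK) (v : Place k Fk) (w : Place K FK)
  (hmem : ∀ f : Fk, E.bc f ∈ w.toValuationSubring ↔ f ∈ v.toValuationSubring)

include hmem

/-- `bc` of a unit at `v` is a unit at `w`. -/
theorem esb_ord_bc_unit {f : Fk} (h0 : v.ord f = 0) : w.ord (E.bc f) = 0 := by
  have h1 : f ∈ v.toValuationSubring := mem_of_ord_nonneg v (by omega)
  have h2 : f⁻¹ ∈ v.toValuationSubring := mem_of_ord_nonneg v (by rw [v.ord_inv]; omega)
  have h3 := ord_nonneg_of_mem w ((hmem f).mpr h1)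
  have h4 := ord_nonneg_of_mem w ((hmem f⁻¹).mpr h2)
  rw [map_inv₀, w.ord_inv] at h4
  omega

/-- `bc` of an element of the maximal ideal at `v` lies in the maximal ideal at `w`. -/
theorem esb_ord_bc_pos {f : Fk} (h0 : 0 < v.ord f) : 0 < w.ord (E.bc f) := by
  have h1 : f ∈ v.toValuationSubring := mem_of_ord_nonneg v (by omega)
  have h3 := ord_nonneg_of_mem w ((hmem f).mpr h1)
  have h2 : f⁻¹ ∉ v.toValuationSubring := by
    intro hc
    have := ord_nonneg_of_mem v hc
    rw [v.ord_inv] at this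
    omega
  have h4 : E.bc f⁻¹ ∉ w.toValuationSubring := fun hc => h2 ((hmem f⁻¹).mp hc)
  by_contra hle
  apply h4
  rw [map_inv₀]
  refine mem_of_ord_nonneg w ?_
  rw [w.ord_inv]
  omega

/-- With `t` a uniformiser of `v`: `w.ord (bc f) = w.ord (bc t) * v.ord f`. -/
theorem esb_ord_bc_eq_mul {t : Fk} (ht : v.ord t = 1) {f : Fk} (hf : f ≠ 0) :
    w.ord (E.bc f) = w.ord (E.bc t) * v.ord f := by
  have ht0 : t ≠ 0 := by
    rintro rfl
    rw [Place.ord_zero] at ht
    omega
  have hu0 : f * t ^ (-(v.ord f)) ≠ 0 := mul_ne_zero hf (zpow_ne_zero _ ht0)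
  have hu : v.ord (f * t ^ (-(v.ord f))) = 0 := by
    rw [v.ord_mul hf (zpow_ne_zero _ ht0), v.ord_zpow, ht]
    ring
  have h1 := esb_ord_bc_unit E v w hmem hu
  rw [map_mul, map_zpow₀, w.ord_mul (esb_bc_ne_zero E hf)
    (zpow_ne_zero _ (esb_bc_ne_zero E ht0)), w.ord_zpow] at h1
  linarith

end basic

variable [IsAlgClosed k]

/-- The scaled Gauss formula. -/
theorem esb_gauss_scaled (E : ConstExt k K Fk FK) (v : Place k Fk) (w : Place K FK)
    (hmem : ∀ f : Fk, E.bc f ∈ w.toValuationSubring ↔ f ∈ v.toValuationSubring)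
    {t : Fk} (ht : v.ord t = 1)
    (n : ℕ) (e : Fin n → K) (f : Fin n → Fk) (m : ℤ)
    (he : ∀ c : Fin n → k, ∑ i, E.ι (c i) * e i = 0 → ∀ i, c i = 0)
    (hf : ∀ i, f i = 0 ∨ m ≤ v.ord (f i)) (hm : ∃ i, f i ≠ 0 ∧ v.ord (f i) = m) :
    ∑ i, algebraMap K FK (e i) * E.bc (f i) ≠ 0 ∧
      w.ord (∑ i, algebraMap K FK (e i) * E.bc (f i)) = w.ord (E.bc t) * m := by
  have ht0 : t ≠ 0 := by
    rintro rfl
    rw [Place.ord_zero] at ht
    omega
  have hbt0 : E.bc t ≠ 0 := esb_bc_ne_zero E ht0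
  have : FiniteDimensional k⟮E.x⟯ Fk := E.x_fin
  have : Algebra.IsAlgebraic k⟮E.x⟯ Fk := Algebra.IsAlgebraic.of_finite _ _
  -- scaled functions
  have hg : ∀ i, f i * t ^ (-m) ∈ v.toValuationSubring := by
    intro i
    rcases hf i with h | h
    · rw [h, zero_mul]; exact v.toValuationSubring.zero_mem
    · by_cases hfi : f i = 0
      · rw [hfi, zero_mul]; exact v.toValuationSubring.zero_mem
      · refine mem_of_ord_nonneg v ?_
        rw [v.ord_mul hfi (zpow_ne_zero _ ht0), v.ord_zpow, ht]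
        linarith
  -- residues
  have hres : ∀ i, ∃ c : k, f i * t ^ (-m) = algebraMap k Fk c ∨
      0 < v.ord (f i * t ^ (-m) - algebraMap k Fk c) :=
    fun i => place_exists_const_sub (y := E.x) v (hg i)
  choose c hc using hres
  -- the constant term is nonzero
  obtain ⟨i₀, hi₀, hi₀m⟩ := hm
  have hci₀ : c i₀ ≠ 0 := by
    intro h0
    have hg0 : f i₀ * t ^ (-m) ≠ 0 := mul_ne_zero hi₀ (zpow_ne_zero _ ht0)
    have hgo : v.ord (f i₀ * t ^ (-m)) = 0 := by
      rw [v.ord_mul hi₀ (zpow_ne_zero _ ht0), v.ord_zpow, ht, hi₀m]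
      ring
    rcases hc i₀ with h | h
    · rw [h0, map_zero] at h
      exact hg0 h
    · rw [h0, map_zero, sub_zero, hgo] at h
      exact lt_irrefl _ h
  have hC0 : ∑ i, E.ι (c i) * e i ≠ 0 := fun h => hci₀ (he c h i₀)
  -- the remainder
  have hR : ∀ i ∈ (Finset.univ : Finset (Fin n)),
      algebraMap K FK (e i) * E.bc (f i * t ^ (-m) - algebraMap k Fk (c i)) = 0 ∨
      (1 : ℤ) ≤ w.ord (algebraMap K FK (e i) *
        E.bc (f i * t ^ (-m) - algebraMap k Fk (c i))) := by
    intro i _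
    by_cases hr0 : f i * t ^ (-m) - algebraMap k Fk (c i) = 0
    · left
      rw [hr0, map_zero, mul_zero]
    by_cases he0 : e i = 0
    · left
      rw [he0, map_zero, zero_mul]
    right
    have hpos : 0 < v.ord (f i * t ^ (-m) - algebraMap k Fk (c i)) := by
      rcases hc i with h | h
      · exact absurd (sub_eq_zero.mpr h) hr0
      · exact h
    have h1 := esb_ord_bc_pos E v w hmem hpos
    have hae : algebraMap K FK (e i) ≠ 0 := by
      intro h
      exact he0 ((algebraMap K FK).injective (by rw [h, map_zero]))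
    rw [w.ord_mul hae (esb_bc_ne_zero E hr0), ord_algebraMap]
    omega
  have hRsum := esb_ord_sum_ge w Finset.univ
    (fun i => algebraMap K FK (e i) * E.bc (f i * t ^ (-m) - algebraMap k Fk (c i))) 1 hR
  -- decomposition of the scaled sum
  have hdecomp : ∑ i, algebraMap K FK (e i) * E.bc (f i * t ^ (-m))
      = algebraMap K FK (∑ i, E.ι (c i) * e i)
        + ∑ i, algebraMap K FK (e i) * E.bc (f i * t ^ (-m) - algebraMap k Fk (c i)) := by
    rw [map_sum, ← Finset.sum_add_distrib]
    refine Finset.sum_congr rfl fun i _ => ?_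
    simp only [map_sub, map_mul, E.bc_algebraMap]
    ring
  have hCne : algebraMap K FK (∑ i, E.ι (c i) * e i) ≠ 0 := by
    intro h
    exact hC0 ((algebraMap K FK).injective (by rw [h, map_zero]))
  have hT : ∑ i, algebraMap K FK (e i) * E.bc (f i * t ^ (-m)) ≠ 0 ∧
      w.ord (∑ i, algebraMap K FK (e i) * E.bc (f i * t ^ (-m))) = 0 := by
    rw [hdecomp]
    rcases hRsum with hR0 | hR1
    · rw [hR0, add_zero]
      exact ⟨hCne, ord_algebraMap w _⟩
    · by_cases hR0 : ∑ i, algebraMap K FK (e i) *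
          E.bc (f i * t ^ (-m) - algebraMap k Fk (c i)) = 0
      · rw [hR0, add_zero]
        exact ⟨hCne, ord_algebraMap w _⟩
      · have hlt : w.ord (algebraMap K FK (∑ i, E.ι (c i) * e i))
            < w.ord (∑ i, algebraMap K FK (e i) *
              E.bc (f i * t ^ (-m) - algebraMap k Fk (c i))) := by
          rw [ord_algebraMap]
          omega
        have heq := ord_add_eq_of_lt w hCne hR0 hlt
        refine ⟨?_, by rw [heq, ord_algebraMap]⟩
        intro hsum
        have h1 : algebraMap K FK (∑ i, E.ι (c i) * e i)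
            = -(∑ i, algebraMap K FK (e i) *
              E.bc (f i * t ^ (-m) - algebraMap k Fk (c i))) := by
          linear_combination hsum
        have h2 := ord_algebraMap w (∑ i, E.ι (c i) * e i)
        rw [h1, ord_neg] at h2
        omega
  -- unscale
  have hS : ∑ i, algebraMap K FK (e i) * E.bc (f i)
      = (∑ i, algebraMap K FK (e i) * E.bc (f i * t ^ (-m))) * (E.bc t) ^ m := by
    rw [Finset.sum_mul]
    refine Finset.sum_congr rfl fun i _ => ?_
    rw [map_mul, map_zpow₀, mul_assoc, mul_assoc, ← zpow_add₀ hbt0]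
    simp
  rw [hS]
  refine ⟨mul_ne_zero hT.1 (zpow_ne_zero _ hbt0), ?_⟩
  rw [w.ord_mul hT.1 (zpow_ne_zero _ hbt0), hT.2, w.ord_zpow]
  ring

/-- Orders at `w` are multiples of `w.ord (bc t)`. -/
theorem esb_dvd_ord (E : ConstExt k K Fk FK) (v : Place k Fk) (w : Place K FK)
    (hmem : ∀ f : Fk, E.bc f ∈ w.toValuationSubring ↔ f ∈ v.toValuationSubring)
    {t : Fk} (ht : v.ord t = 1) (h : FK) : w.ord (E.bc t) ∣ w.ord h := by
  classical
  -- sums
  have hsum : ∀ (n : ℕ) (a : Fin n → K) (u : Fin n → Fk),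
      w.ord (E.bc t) ∣ w.ord (∑ i, algebraMap K FK (a i) * E.bc (u i)) := by
    intro n a u
    obtain ⟨n', e, u', he, hs⟩ := esb_normalForm E n a u
    rw [hs]
    by_cases hz : ∃ l, u' l ≠ 0
    · obtain ⟨i₁, hi₁⟩ := hz
      have hne : (Finset.univ.filter fun i => u' i ≠ 0).Nonempty := ⟨i₁, by simp [hi₁]⟩
      obtain ⟨i₀, hi₀, hmin⟩ := Finset.exists_min_image _ (fun i => v.ord (u' i)) hne
      rw [Finset.mem_filter] at hi₀
      have h1 : ∀ i, u' i = 0 ∨ v.ord (u' i₀) ≤ v.ord (u' i) := by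
        intro i
        by_cases hfi : u' i = 0
        · exact Or.inl hfi
        · exact Or.inr (hmin i (by simp [hfi]))
      have h2 : ∃ i, u' i ≠ 0 ∧ v.ord (u' i) = v.ord (u' i₀) := ⟨i₀, hi₀.2, rfl⟩
      rw [(esb_gauss_scaled E v w hmem ht n' e u' _ he h1 h2).2]
      exact dvd_mul_right _ _
    · have hall : ∀ l, u' l = 0 := by
        intro l
        by_contra hl
        exact hz ⟨l, hl⟩
      have : ∑ l, algebraMap K FK (e l) * E.bc (u' l) = 0 :=
        Finset.sum_eq_zero fun l _ => by rw [hall l, map_zero, mul_zero]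
      rw [this, Place.ord_zero]
      exact dvd_zero _
  rcases eq_or_ne h 0 with rfl | hh
  · rw [Place.ord_zero]; exact dvd_zero _
  obtain ⟨n, e, u, d, hd, hmul⟩ := E.gen h
  have h1 := hsum n e d
  have h2 := hsum n e u
  rw [← hmul, w.ord_mul hh hd] at h2
  exact (dvd_add_left h1).mp h2

/-- **ESB-2b** The Gauss formula. -/
theorem gaussFormula : GaussFormulaStatement := by
  intro k K Fk FK _ _ _ _ _ _ _ _ _ _ E v w hmem
  obtain ⟨π, hπ, hπ1⟩ := exists_irreducible_ord_one v
  obtain ⟨ϖ, hϖ, hϖ1⟩ := exists_irreducible_ord_one w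
  have ht0 : (π : Fk) ≠ 0 := by
    intro h
    rw [h, Place.ord_zero] at hπ1
    omega
  have hpos : 0 < w.ord (E.bc (π : Fk)) := esb_ord_bc_pos E v w hmem (by omega)
  have hdvd := esb_dvd_ord E v w hmem hπ1 (ϖ : FK)
  rw [hϖ1] at hdvd
  have hone : w.ord (E.bc (π : Fk)) = 1 :=
    Int.eq_one_of_dvd_one hpos.le hdvd
  refine ⟨fun f => ?_, fun n e f m he hf hm => ?_⟩
  · rcases eq_or_ne f 0 with rfl | hf
    · rw [map_zero, Place.ord_zero, Place.ord_zero]
    · rw [esb_ord_bc_eq_mul E v w hmem hπ1 hf, hone, one_mul]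
  · have h := esb_gauss_scaled E v w hmem hπ1 n e f m he hf hm
    rw [hone, one_mul] at h
    exact h

/-- **ESB-2c**, unconditional. -/
theorem placeExtUniqueStatement : PlaceExtUniqueStatement := placeExtUnique gaussFormula

/-- **ESB-2** from **ESB-2a**. -/
theorem placeExt_of_placeAbove (h2a : PlaceAboveStatement) : PlaceExtStatement :=
  placeExt h2a gaussFormula

end Fermat.Agent.H97

end
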