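import Fermat.Agent.H97.QES3
import Fermat.Agent.H28.ES.Interface3

/-!
# P-ES / J-GAL: `JGalHeckeStatement` (adapter from Q-ES-3)
-/

set_option autoImplicit false

namespace Fermat.Agent.H97

open ModularCurve AlgebraicCurve

/-- **J-GAL.**  `T_ℓ` commutes with the Galois action on (torsion) points of `J₀(N)(ℚ̄)`. -/
theorem jGalHeckeStatement : Fermat.Agent.H28.JGalHeckeStatement :=
  fun N _ ℓ _ σ x _ => qes_heckeOperatorBar_galois N ℓ σ x

end Fermat.Agent.H97
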