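import Fermat.Agent.H97.S16UB34
import Fermat.Agent.H7.S16.TraceSqFinal

/-!
# S16 upper bound, cases `ℓ = 3` (`p ≡ 1 mod 3`) and `ℓ = 2` (`p ≡ 1 mod 4`): unconditional form

`noUnitThree` / `noUnitFour` of `Fermat.Agent.H97.S16UB34` applied to the landed
`Fermat.Agent.H7.S16.traceSq`, `Fermat.Agent.H17.upStatement`, `Fermat.Agent.H17.upSqStatement`.
-/

set_option autoImplicit false

namespace Fermat.Agent.H97

/-- (UB3), unconditional. -/
theorem noUnitThreeStatement : Fermat.Agent.H6.S16UB.NoUnitThreeStatement :=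
  noUnitThree Fermat.Agent.H7.S16.traceSq Fermat.Agent.H17.upStatement
    Fermat.Agent.H17.upSqStatement

/-- (UB4), unconditional. -/
theorem noUnitFourStatement : Fermat.Agent.H6.S16UB.NoUnitFourStatement :=
  noUnitFour Fermat.Agent.H7.S16.traceSq Fermat.Agent.H17.upStatement
    Fermat.Agent.H17.upSqStatement

end Fermat.Agent.H97
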